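import Fermat.Agent.A2.Spec
import Fermat.Agent.S56.H186.TameQbar
import Fermat.Agent.S17.H126.StabilizerOpen

/-!
# S35 / piece (T) `TameStatement` (helper504)

Piece (T) of `origin/helper991:coord/S35-helper991.md`: the **tame relation on torsion of `J₀(N)`**.

For a prime `q`, a valuation subring `A` of `ℚ̄` over `q`, `τ` in the inertia group of `A`, a
Frobenius lift `s` at `A`, and `x : JZero N` with `m • x = 0`, `m` prime to `q`:

  `(s * τ * s⁻¹) • x = τ ^ q • x`,

PROVIDED inertia at `q` acts unipotently on the `m`-torsion (`hU : A2.Target N q m`, the wall A2,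
input (U) of S34).

Proof: the permutation representation `π` of `G_ℚ` on the Galois orbit of `x` has finite level
(`S17.H126.stabilizer_open` + normal closure), `π(σ)^m = 1` for `σ` in the inertia group by (U)
(`σ ^ k • y = y + k • (σ • y - y)`), so `S56.H186.tame_frobenius` applies.

* `tame_of_target`      : general `m` prime to `q`;
* `tame_of_target_pow`  : the form (T) of the S35 board (`p`-power torsion, `p ≠ q` prime);
* `pow_smul_eq_of_target` : `σ ^ k • y = y + k • (σ • y - y)` for `σ` in inertia, `m • y = 0`;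
* `pow_torsion_smul_eq_self_of_target` : `σ ^ m • y = y`.
-/

set_option autoImplicit false

noncomputable section

namespace Fermat.Agent.S35.H504

open ModularCurve AlgebraicCurve

/-- `ℚ̄` -/
local notation "Qbar" => AlgebraicClosure ℚ

/-- `G_ℚ` -/
local notation "GQbar" => (AlgebraicClosure ℚ ≃ₐ[ℚ] AlgebraicClosure ℚ)

variable {N : ℕ}

/-- The Galois action commutes with multiplication by integers. -/
theorem galois_smul_nsmul (g : GQbar) (m : ℕ) (y : JZero N) : g • (m • y) = m • (g • y) :=
  map_nsmul (DistribSMul.toAddMonoidHom (JZero N) g) m y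

theorem galois_smul_zero (g : GQbar) : g • (0 : JZero N) = 0 :=
  smul_zero (A := JZero N) g

theorem galois_smul_add (g : GQbar) (a b : JZero N) : g • (a + b) = g • a + g • b :=
  smul_add g a b

theorem galois_smul_sub (g : GQbar) (a b : JZero N) : g • (a - b) = g • a - g • b :=
  smul_sub g a b

theorem galois_mul_smul (g h : GQbar) (a : JZero N) : (g * h) • a = g • (h • a) :=
  mul_smul g h a

theorem galois_one_smul (a : JZero N) : (1 : GQbar) • a = a :=
  one_smul _ a

/-- The Galois action preserves `m`-torsion. -/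
theorem nsmul_galois_smul_eq_zero {m : ℕ} (g : GQbar) {y : JZero N} (hy : m • y = 0) :
    m • (g • y) = 0 := by
  rw [← galois_smul_nsmul g m y, hy, galois_smul_zero]

/-- **Unipotent iteration.**  If `σ • σ • y + y = 2 • σ • y` then
`σ ^ k • y = y + k • (σ • y - y)` for all `k`. -/
theorem pow_smul_eq_of_unipotent (σ : GQbar) (y : JZero N)
    (h : σ • (σ • y) + y = 2 • (σ • y)) (k : ℕ) :
    (σ ^ k) • y = y + k • (σ • y - y) := by
  -- `σ` fixes `d := σ y - y`
  have hd : σ • (σ • y - y) = σ • y - y := by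
    rw [galois_smul_sub]
    have : σ • (σ • y) = 2 • (σ • y) - y := eq_sub_of_add_eq h
    rw [this, two_nsmul]
    abel
  induction k with
  | zero => rw [pow_zero, galois_one_smul, zero_nsmul, add_zero]
  | succ k ih =>
    rw [pow_succ', galois_mul_smul, ih, galois_smul_add, galois_smul_nsmul, hd, succ_nsmul]
    abel

/-- For `σ` in an inertia group at `q` and `y` of `m`-torsion, under (U):
`σ ^ k • y = y + k • (σ • y - y)`. -/
theorem pow_smul_eq_of_target {q m : ℕ} (hU : Fermat.Agent.A2.Target N q m)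
    (A : ValuationSubring Qbar) (hA : A.LiesOverPrime q) {σ : GQbar}
    (hσ : σ ∈ A.inertiaSubgroupIn ℚ) {y : JZero N} (hy : m • y = 0) (k : ℕ) :
    (σ ^ k) • y = y + k • (σ • y - y) :=
  pow_smul_eq_of_unipotent σ y (hU A hA σ hσ y hy) k

/-- Under (U), `σ ^ m` fixes the `m`-torsion, for `σ` in an inertia group at `q`. -/
theorem pow_torsion_smul_eq_self_of_target {q m : ℕ} (hU : Fermat.Agent.A2.Target N q m)
    (A : ValuationSubring Qbar) (hA : A.LiesOverPrime q) {σ : GQbar}
    (hσ : σ ∈ A.inertiaSubgroupIn ℚ) {y : JZero N} (hy : m • y = 0) :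
    (σ ^ m) • y = y := by
  rw [pow_smul_eq_of_target hU A hA hσ hy m, nsmul_sub, hy,
    nsmul_galois_smul_eq_zero σ hy, sub_zero, add_zero]

/-- The permutation representation of `G_ℚ` on the Galois orbit of `x`. -/
def orbitRep (x : JZero N) : GQbar →* Equiv.Perm (MulAction.orbit GQbar x) :=
  MulAction.toPermHom GQbar (MulAction.orbit GQbar x)

theorem coe_orbitRep_apply (x : JZero N) (σ : GQbar) (y : MulAction.orbit GQbar x) :
    ((orbitRep x σ y : MulAction.orbit GQbar x) : JZero N) = σ • (y : JZero N) :=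
  rfl

theorem orbitRep_eq_one_iff (x : JZero N) (σ : GQbar) :
    orbitRep x σ = 1 ↔ ∀ y ∈ MulAction.orbit GQbar x, σ • y = y := by
  constructor
  · intro h y hy
    exact congrArg (fun e : Equiv.Perm (MulAction.orbit GQbar x) =>
      ((e ⟨y, hy⟩ : MulAction.orbit GQbar x) : JZero N)) h
  · intro h
    ext y
    rw [coe_orbitRep_apply]
    exact h y y.2

/-- The orbit representation has finite level. -/
theorem orbitRep_finiteLevel [NeZero N] (x : JZero N) :
    ∃ E : IntermediateField ℚ Qbar, FiniteDimensional ℚ E ∧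
      ∀ σ : GQbar, (∀ a ∈ E, σ a = a) → orbitRep x σ = 1 := by
  obtain ⟨K, hK, hfix⟩ := Fermat.Agent.S17.H126.stabilizer_open N x
  have := hK
  refine ⟨IntermediateField.normalClosure ℚ K Qbar, inferInstance, fun σ hσ => ?_⟩
  rw [orbitRep_eq_one_iff]
  rintro y ⟨g, rfl⟩
  -- `σ g x = g x` iff `g⁻¹ σ g` fixes `x`
  have hconj : (g⁻¹ * σ * g) • x = x := by
    refine hfix _ fun a ha => ?_
    have hga : g a ∈ IntermediateField.normalClosure ℚ K Qbar := by
      have hle := AlgHom.fieldRange_le_normalClosure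
        (((g : Qbar →ₐ[ℚ] Qbar)).comp K.val)
      exact hle ⟨⟨a, ha⟩, rfl⟩
    have := hσ (g a) hga
    show g⁻¹ (σ (g a)) = a
    rw [this]
    exact g.symm_apply_apply a
  show σ • (g • x) = g • x
  calc σ • (g • x) = g • ((g⁻¹ * σ * g) • x) := by
        rw [galois_mul_smul, galois_mul_smul, ← galois_mul_smul g g⁻¹, mul_inv_cancel,
          galois_one_smul]
    _ = g • x := by rw [hconj]

/-- **(T), general form.**  Under (U) `= A2.Target N q m`, with `m` prime to `q`: a Frobenius
lift `s` at `A ∣ q` conjugates `τ ∈ I_A` to `τ ^ q` on the `m`-torsion of `J₀(N)`. -/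
theorem tame_of_target [NeZero N] {q m : ℕ} (hq : q.Prime) (hmq : Nat.Coprime m q)
    (hU : Fermat.Agent.A2.Target N q m)
    (A : ValuationSubring Qbar) (hA : A.LiesOverPrime q)
    {τ : GQbar} (hτ : τ ∈ A.inertiaSubgroupIn ℚ)
    {s : GQbar} (hs : A.IsFrobeniusAt s q)
    (x : JZero N) (hx : m • x = 0) :
    (s * τ * s⁻¹) • x = (τ ^ q) • x := by
  have htors : ∀ y ∈ MulAction.orbit GQbar x, m • y = 0 := by
    rintro y ⟨g, rfl⟩
    exact nsmul_galois_smul_eq_zero g hx
  have hp : ∀ σ ∈ A.inertiaSubgroupIn ℚ, ∃ a : ℕ, orbitRep x σ ^ (m ^ a) = 1 := by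
    intro σ hσ
    refine ⟨1, ?_⟩
    rw [pow_one, ← map_pow, orbitRep_eq_one_iff]
    intro y hy
    exact pow_torsion_smul_eq_self_of_target hU A hA hσ (htors y hy)
  have key := Fermat.Agent.S56.H186.tame_frobenius A (orbitRep x) hA hq
    (orbitRep_finiteLevel x) hmq hp hs hτ
  rw [← map_pow] at key
  exact congrArg (fun e : Equiv.Perm (MulAction.orbit GQbar x) =>
    ((e ⟨x, MulAction.mem_orbit_self x⟩ : MulAction.orbit GQbar x) : JZero N)) key

/-- **(T), board form** (`origin/helper991:coord/S35-helper991.md` §2 (T)): `p`-power torsion,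
`p ≠ q` primes, with (U) for all powers of `p`. -/
theorem tame_of_target_pow [NeZero N] {q p : ℕ} (hq : q.Prime) (hp : p.Prime) (hpq : p ≠ q)
    (hU : ∀ n : ℕ, Fermat.Agent.A2.Target N q (p ^ n))
    (A : ValuationSubring Qbar) (hA : A.LiesOverPrime q)
    {τ : GQbar} (hτ : τ ∈ A.inertiaSubgroupIn ℚ)
    {s : GQbar} (hs : A.IsFrobeniusAt s q)
    (x : JZero N) (hx : ∃ n : ℕ, p ^ n • x = 0) :
    (s * τ * s⁻¹) • x = (τ ^ q) • x := by
  obtain ⟨n, hn⟩ := hx
  have hcop : Nat.Coprime (p ^ n) q :=
    Nat.Coprime.pow_left n ((Nat.coprime_primes hp hq).2 hpq)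
  exact tame_of_target hq hcop (hU n) A hA hτ hs x hn

end Fermat.Agent.S35.H504
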